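/-
S52 / Tate family identities, one stage (owner: helper41).  See `TateId/Defs.lean`.
-/
import Fermat.Agent.S52.TateId.StU

set_option autoImplicit false
set_option maxRecDepth 1000000

namespace Fermat.Agent.S52.TateId

open Fermat.Agent.S52.Refl.Mv Fermat.Agent.S52

variable {R : Type*} [CommRing R]

theorem stL6_0 (d s : R) :
    Tate.fam6c0 (Tate.c4T d) (Tate.c6T d) * s ^ 0 + Tate.fam6c1 (Tate.c4T d) (Tate.c6T d) * s ^ 1 + Tate.fam6c2 (Tate.c4T d) (Tate.c6T d) * s ^ 2 + Tate.fam6c3 (Tate.c4T d) (Tate.c6T d) * s ^ 3 + Tate.fam6c4 (Tate.c4T d) (Tate.c6T d) * s ^ 4 + Tate.fam6c5 (Tate.c4T d) (Tate.c6T d) * s ^ 5 + Tate.fam6c6 (Tate.c4T d) (Tate.c6T d) * s ^ 6 + Tate.fam6c7 (Tate.c4T d) (Tate.c6T d) * s ^ 7 = (sem3 d s (0 : R)).ev L6lit0 := by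
  have h := ME.sound_eq d s (0 : R) (fam6c0E (c4TE ME.v0) (c6TE ME.v0) * ME.v1 ^ 0 + fam6c1E (c4TE ME.v0) (c6TE ME.v0) * ME.v1 ^ 1 + fam6c2E (c4TE ME.v0) (c6TE ME.v0) * ME.v1 ^ 2 + fam6c3E (c4TE ME.v0) (c6TE ME.v0) * ME.v1 ^ 3 + fam6c4E (c4TE ME.v0) (c6TE ME.v0) * ME.v1 ^ 4 + fam6c5E (c4TE ME.v0) (c6TE ME.v0) * ME.v1 ^ 5 + fam6c6E (c4TE ME.v0) (c6TE ME.v0) * ME.v1 ^ 6 + fam6c7E (c4TE ME.v0) (c6TE ME.v0) * ME.v1 ^ 7) (ME.lit L6lit0) (by decide +kernel)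
  simpa only [ME.denote_add, ME.denote_sub, ME.denote_neg, ME.denote_mul, ME.denote_pow,
    ME.denote_ofNat, ME.denote_one, ME.denote_zero, ME.denote_v0, ME.denote_v1, ME.denote_lit,
    c4TE, c6TE, famNE, famDE, famNc0E, famDc0E, famNc1E, famDc1E, famNc2E, famDc2E, famNc3E, famDc3E, famNc4E, famDc4E, famNc5E, famDc5E, fam6c0E, fam6c1E, fam6c2E, fam6c3E, fam6c4E, fam6c5E, fam6c6E, fam6c7E,
    Tate.c4T, Tate.c6T, Tate.famN, Tate.famD, Tate.famNc0, Tate.famDc0, Tate.famNc1, Tate.famDc1, Tate.famNc2, Tate.famDc2, Tate.famNc3, Tate.famDc3, Tate.famNc4, Tate.famDc4, Tate.famNc5, Tate.famDc5, Tate.fam6c0, Tate.fam6c1, Tate.fam6c2, Tate.fam6c3, Tate.fam6c4, Tate.fam6c5, Tate.fam6c6, Tate.fam6c7] using h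

end Fermat.Agent.S52.TateId
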