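/-
S52 / Tate family identities, one stage (owner: helper41).  See `TateId/Defs.lean`.
-/
import Fermat.Agent.S52.TateId.StL6x1

set_option autoImplicit false
set_option maxRecDepth 1000000

namespace Fermat.Agent.S52.TateId

open Fermat.Agent.S52.Refl.Mv Fermat.Agent.S52

variable {R : Type*} [CommRing R]

theorem stL6_2 (d s : R) :
    Tate.fam6c14 (Tate.c4T d) (Tate.c6T d) * s ^ 14 + Tate.fam6c15 (Tate.c4T d) (Tate.c6T d) * s ^ 15 + Tate.fam6c16 (Tate.c4T d) (Tate.c6T d) * s ^ 16 + Tate.fam6c17 (Tate.c4T d) (Tate.c6T d) * s ^ 17 + Tate.fam6c18 (Tate.c4T d) (Tate.c6T d) * s ^ 18 = (sem3 d s (0 : R)).ev L6lit2 := by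
  have h := ME.sound_eq d s (0 : R) (fam6c14E (c4TE ME.v0) (c6TE ME.v0) * ME.v1 ^ 14 + fam6c15E (c4TE ME.v0) (c6TE ME.v0) * ME.v1 ^ 15 + fam6c16E (c4TE ME.v0) (c6TE ME.v0) * ME.v1 ^ 16 + fam6c17E (c4TE ME.v0) (c6TE ME.v0) * ME.v1 ^ 17 + fam6c18E (c4TE ME.v0) (c6TE ME.v0) * ME.v1 ^ 18) (ME.lit L6lit2) (by decide +kernel)
  simpa only [ME.denote_add, ME.denote_sub, ME.denote_neg, ME.denote_mul, ME.denote_pow,
    ME.denote_ofNat, ME.denote_one, ME.denote_zero, ME.denote_v0, ME.denote_v1, ME.denote_lit,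
    c4TE, c6TE, famNE, famDE, famNc0E, famDc0E, famNc1E, famDc1E, famNc2E, famDc2E, famNc3E, famDc3E, famNc4E, famDc4E, famNc5E, famDc5E, fam6c14E, fam6c15E, fam6c16E, fam6c17E, fam6c18E,
    Tate.c4T, Tate.c6T, Tate.famN, Tate.famD, Tate.famNc0, Tate.famDc0, Tate.famNc1, Tate.famDc1, Tate.famNc2, Tate.famDc2, Tate.famNc3, Tate.famDc3, Tate.famNc4, Tate.famDc4, Tate.famNc5, Tate.famDc5, Tate.fam6c14, Tate.fam6c15, Tate.fam6c16, Tate.fam6c17, Tate.fam6c18] using h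

end Fermat.Agent.S52.TateId
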