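/-
S52 / Tate family identities, one stage (owner: helper41).  See `TateId/Defs.lean`.
-/
import Fermat.Agent.S52.TateId.StR4b

set_option autoImplicit false
set_option maxRecDepth 1000000

namespace Fermat.Agent.S52.TateId

open Fermat.Agent.S52.Refl.Mv Fermat.Agent.S52

variable {R : Type*} [CommRing R]

theorem stL4_0 (d s : R) :
    Tate.fam4c0 (Tate.c4T d) (Tate.c6T d) * s ^ 0 + Tate.fam4c1 (Tate.c4T d) (Tate.c6T d) * s ^ 1 + Tate.fam4c2 (Tate.c4T d) (Tate.c6T d) * s ^ 2 + Tate.fam4c3 (Tate.c4T d) (Tate.c6T d) * s ^ 3 + Tate.fam4c4 (Tate.c4T d) (Tate.c6T d) * s ^ 4 + Tate.fam4c5 (Tate.c4T d) (Tate.c6T d) * s ^ 5 + Tate.fam4c6 (Tate.c4T d) (Tate.c6T d) * s ^ 6 + Tate.fam4c7 (Tate.c4T d) (Tate.c6T d) * s ^ 7 + Tate.fam4c8 (Tate.c4T d) (Tate.c6T d) * s ^ 8 + Tate.fam4c9 (Tate.c4T d) (Tate.c6T d) * s ^ 9 + Tate.fam4c10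 (Tate.c4T d) (Tate.c6T d) * s ^ 10 = (sem3 d s (0 : R)).ev L4lit0 := by
  have h := ME.sound_eq d s (0 : R) (fam4c0E (c4TE ME.v0) (c6TE ME.v0) * ME.v1 ^ 0 + fam4c1E (c4TE ME.v0) (c6TE ME.v0) * ME.v1 ^ 1 + fam4c2E (c4TE ME.v0) (c6TE ME.v0) * ME.v1 ^ 2 + fam4c3E (c4TE ME.v0) (c6TE ME.v0) * ME.v1 ^ 3 + fam4c4E (c4TE ME.v0) (c6TE ME.v0) * ME.v1 ^ 4 + fam4c5E (c4TE ME.v0) (c6TE ME.v0) * ME.v1 ^ 5 + fam4c6E (c4TE ME.v0) (c6TE ME.v0) * ME.v1 ^ 6 + fam4c7E (c4TE ME.v0) (c6TE ME.v0) * ME.v1 ^ 7 + fam4c8E (c4TE ME.v0) (c6TE ME.v0) * ME.v1 ^ 8 + fam4c9E (c4TE ME.v0) (c6TE ME.v0) * ME.v1 ^ 9 + fam4c10E (c4TE ME.v0) (c6TE ME.v0) * ME.v1 ^ 10) (ME.lit L4lit0) (by decide +kernel)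
  simpa only [ME.denote_add, ME.denote_sub, ME.denote_neg, ME.denote_mul, ME.denote_pow,
    ME.denote_ofNat, ME.denote_one, ME.denote_zero, ME.denote_v0, ME.denote_v1, ME.denote_lit,
    c4TE, c6TE, famNE, famDE, famNc0E, famDc0E, famNc1E, famDc1E, famNc2E, famDc2E, famNc3E, famDc3E, famNc4E, famDc4E, famNc5E, famDc5E, fam4c0E, fam4c1E, fam4c2E, fam4c3E, fam4c4E, fam4c5E, fam4c6E, fam4c7E, fam4c8E, fam4c9E, fam4c10E,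
    Tate.c4T, Tate.c6T, Tate.famN, Tate.famD, Tate.famNc0, Tate.famDc0, Tate.famNc1, Tate.famDc1, Tate.famNc2, Tate.famDc2, Tate.famNc3, Tate.famDc3, Tate.famNc4, Tate.famDc4, Tate.famNc5, Tate.famDc5, Tate.fam4c0, Tate.fam4c1, Tate.fam4c2, Tate.fam4c3, Tate.fam4c4, Tate.fam4c5, Tate.fam4c6, Tate.fam4c7, Tate.fam4c8, Tate.fam4c9, Tate.fam4c10] using h

end Fermat.Agent.S52.TateId
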