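/-
S52 / Tate family identities, combination of the stages (owner: helper41).
-/
import Fermat.Agent.S52.TateId.StL4x2

set_option autoImplicit false
set_option maxRecDepth 1000000

namespace Fermat.Agent.S52.TateId

open Fermat.Agent.S52.Refl.Mv Fermat.Agent.S52

variable {R : Type*} [CommRing R]

theorem stC (d s : R) :
    (sem3 d s (0 : R)).ev Ulit * ((sem3 d s (0 : R)).ev V1lit + (sem3 d s (0 : R)).ev V2lit) = (sem3 d s (0 : R)).ev Wlit := by
  have h := ME.sound_eq d s (0 : R) (ME.lit Ulit * (ME.lit V1lit + ME.lit V2lit)) (ME.lit Wlit)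
    (by decide +kernel)
  simpa only [ME.denote_add, ME.denote_mul, ME.denote_lit] using h

theorem stS6 (d s : R) :
    (sem3 d s (0 : R)).ev L6lit0 + (sem3 d s (0 : R)).ev L6lit1 + (sem3 d s (0 : R)).ev L6lit2 + (sem3 d s (0 : R)).ev L6lit3 + (sem3 d s (0 : R)).ev L6lit4 + (sem3 d s (0 : R)).ev L6lit5 + (sem3 d s (0 : R)).ev Wlit = 0 := by
  have h := ME.sound_eq d s (0 : R)
    (ME.lit L6lit0 + ME.lit L6lit1 + ME.lit L6lit2 + ME.lit L6lit3 + ME.lit L6lit4 + ME.lit L6lit5 + ME.lit Wlit) 0 (by decide +kernel)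
  simpa only [ME.denote_add, ME.denote_lit, ME.denote_zero] using h

theorem stS4 (d s : R) :
    (sem3 d s (0 : R)).ev L4lit0 + (sem3 d s (0 : R)).ev L4lit1 + (sem3 d s (0 : R)).ev L4lit2 = (sem3 d s (0 : R)).ev R4alit + (sem3 d s (0 : R)).ev R4blit := by
  have h := ME.sound_eq d s (0 : R)
    (ME.lit L4lit0 + ME.lit L4lit1 + ME.lit L4lit2) (ME.lit R4alit + ME.lit R4blit) (by decide +kernel)
  simpa only [ME.denote_add, ME.denote_lit] using h

end Fermat.Agent.S52.TateId
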