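/-
S52 / [Fam]: the two core identities of the Tate-normal-form realisation of the 5-congruent
family (owner: helper41; statements of helper74).  They are polynomial identities in `d, s` of
degree 20 resp. 30 in `s`; a direct `ring` needs more than 16 GB.  Here they are assembled from
kernel-checked stages (`Fermat/Agent/S52/TateId/`, reflection kit `Refl/MvZ.lean`).
-/
import Fermat.Agent.S52.TateId.StComb

set_option autoImplicit false

namespace Fermat.Agent.S52.TateId

open Fermat.Agent.S52.Refl.Mv Fermat.Agent.S52 Fermat.Agent.S52.Tate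

theorem fam4_tate_refl {R : Type*} [CommRing R] (d s : R) :
    fam4 (c4T d) (c6T d) s = C4form (famN d s) (famD d s) := by
  have e1 : fam4 (c4T d) (c6T d) s =
      (sem3 d s (0 : R)).ev L4lit0 + (sem3 d s (0 : R)).ev L4lit1 + (sem3 d s (0 : R)).ev L4lit2 := by
    unfold fam4
    linear_combination stL4_0 d s + stL4_1 d s + stL4_2 d s
  rw [e1, stS4, ← stR4a, ← stR4b]
  unfold C4form
  ring

theorem fam6_tate_refl {R : Type*} [CommRing R] (d s : R) :
    fam6 (c4T d) (c6T d) s = C6form (famN d s) (famD d s) := by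
  have e1 : fam6 (c4T d) (c6T d) s =
      (sem3 d s (0 : R)).ev L6lit0 + (sem3 d s (0 : R)).ev L6lit1 + (sem3 d s (0 : R)).ev L6lit2 + (sem3 d s (0 : R)).ev L6lit3 + (sem3 d s (0 : R)).ev L6lit4 + (sem3 d s (0 : R)).ev L6lit5 := by
    unfold fam6
    linear_combination stL6_0 d s + stL6_1 d s + stL6_2 d s + stL6_3 d s + stL6_4 d s + stL6_5 d s
  have e2 : (sem3 d s (0 : R)).ev L6lit0 + (sem3 d s (0 : R)).ev L6lit1 + (sem3 d s (0 : R)).ev L6lit2 + (sem3 d s (0 : R)).ev L6lit3 + (sem3 d s (0 : R)).ev L6lit4 + (sem3 d s (0 : R)).ev L6lit5 = -(sem3 d s (0 : R)).ev Wlit := by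
    linear_combination stS6 d s
  rw [e1, e2, ← stC, ← stU, ← stV1, ← stV2]
  unfold C6form
  ring

end Fermat.Agent.S52.TateId
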